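import Fermat.Agent.CFT.Idele.FixedClasses
import Fermat.Agent.CFT.Duality.Instances
import Fermat.Agent.CFT.Coh.Level

/-!
# Inclusion of the idele classes of a subfield

For finite normal `K ≤ L` the restriction `Gal(L/ℚ) → Gal(K/ℚ)` and the injections `J K → J L`,
`C K → C L` onto the invariants of the kernel.
-/

set_option autoImplicit false
set_option linter.unusedSectionVars false

noncomputable section

namespace Fermat.Agent.CFT.Duality

open ExtCitation Fermat.Agent.Arith IntermediateField Fermat.Agent.CFT.Local Fermat.Agent.CFT.Idele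

local instance factPrimeIncl (q : Nat.Primes) : Fact (q : ℕ).Prime := ⟨q.2⟩

variable {K L : IntermediateField ℚ QBar} [FiniteDimensional ℚ K] [Normal ℚ K]
  [FiniteDimensional ℚ L] [Normal ℚ L] (h : K ≤ L)

/-- The restriction from `Gal(L/ℚ)` to `Gal(K/ℚ)`. -/
def levelRes : (L ≃ₐ[ℚ] L) →* (K ≃ₐ[ℚ] K) :=
  MonoidHom.mk' (fun σ => res K (lift L σ)) fun σ τ => by
    rw [← map_mul (res K), res_eq_iff K]
    refine IntermediateField.fixingSubgroup_antitone h ?_
    rw [← res_eq_iff L]
    simp only [map_mul, res_lift]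

theorem levelRes_res (g : GQ) : levelRes h (res L g) = res K g := by
  show res K (lift L (res L g)) = res K g
  rw [res_eq_iff K]
  refine IntermediateField.fixingSubgroup_antitone h ?_
  rw [← res_eq_iff L, res_lift]

theorem levelRes_surjective : Function.Surjective (levelRes h) := fun σ =>
  ⟨res L (lift K σ), by rw [levelRes_res, res_lift]⟩

/-- The inclusion of ideles, multiplicatively. -/
def inclIdl : idl K →* idl L := Subgroup.inclusion (idl_mono h)

theorem inclIdl_injective : Function.Injective (inclIdl h) :=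
  Subgroup.inclusion_injective (idl_mono h)

theorem smul_inclIdl (σ : L ≃ₐ[ℚ] L) (f : idl K) :
    σ • inclIdl h f = inclIdl h (levelRes h σ • f) := Subtype.ext <|
  (coe_smul_idl L σ _ (res_lift L σ)).trans
    (coe_smul_idl K (levelRes h σ) f (rfl : res K (lift L σ) = _)).symm

theorem inclIdl_prinL (x : Kˣ) :
    inclIdl h (prinL K x) =
      prinL L (Units.map (IntermediateField.inclusion h).toRingHom.toMonoidHom x) := rfl

theorem inclIdl_mem_range_prinL {f : idl K} :
    inclIdl h f ∈ (prinL L).range ↔ f ∈ (prinL K).range := by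
  refine ⟨?_, ?_⟩
  · rintro ⟨x, hx⟩
    have hx' : prin (Units.map L.val.toRingHom.toMonoidHom x) = (f : PreIdele) :=
      congrArg Subtype.val hx
    have hK : ((x : L) : QBar) ∈ K := by
      have := prin_mem_idl_iff.1 (hx' ▸ f.2)
      exact this
    refine ⟨Units.mk0 ⟨((x : L) : QBar), hK⟩ fun e => x.ne_zero
      (Subtype.ext (congrArg (fun z : K => (z : QBar)) e)), Subtype.ext ?_⟩
    refine Eq.trans ?_ hx'
    exact congrArg prin (Units.ext rfl)
  · rintro ⟨x, rfl⟩
    exact ⟨_, (inclIdl_prinL h x).symm⟩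

/-- The inclusion of ideles. -/
def inclJ : J K →+ J L :=
  AddMonoidHom.mk' (fun x => Additive.ofMul (inclIdl h x.toMul)) fun x y =>
    congrArg Additive.ofMul (map_mul (inclIdl h) x.toMul y.toMul)

theorem inclJ_injective : Function.Injective (inclJ h) := fun _ _ e => inclIdl_injective h e

theorem smul_inclJ (σ : L ≃ₐ[ℚ] L) (x : J K) : σ • inclJ h x = inclJ h (levelRes h σ • x) :=
  congrArg Additive.ofMul (smul_inclIdl h σ x.toMul)

/-- The inclusion of idele classes, multiplicatively. -/
def inclClass : ClassGrp K →* ClassGrp L :=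
  QuotientGroup.map _ _ (inclIdl h) fun _ hf => (inclIdl_mem_range_prinL h).2 hf

/-- The inclusion of idele classes. -/
def inclC : C K →+ C L :=
  AddMonoidHom.mk' (fun c => Additive.ofMul (inclClass h c.toMul)) fun x y =>
    congrArg Additive.ofMul (map_mul (inclClass h) x.toMul y.toMul)

theorem toMul_inclJ (x : J K) : (inclJ h x).toMul = inclIdl h x.toMul := rfl

theorem inclC_proj (x : J K) : inclC h (proj K x) = proj L (inclJ h x) := rfl

theorem inclC_injective : Function.Injective (inclC h) := by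
  rw [injective_iff_map_eq_zero]
  intro c hc
  obtain ⟨x, rfl⟩ := proj_surjective K c
  rw [inclC_proj, proj_eq_zero_iff] at hc
  rw [proj_eq_zero_iff]
  exact MonoidHom.mem_range.1 ((inclIdl_mem_range_prinL h).1 (MonoidHom.mem_range.2 hc))

theorem smul_inclC (σ : L ≃ₐ[ℚ] L) (c : C K) : σ • inclC h c = inclC h (levelRes h σ • c) := by
  obtain ⟨x, rfl⟩ := proj_surjective K c
  rw [inclC_proj, ← proj_smul, smul_inclJ, ← inclC_proj, proj_smul]

theorem exists_inclIdl_eq {f : idl L} (hf : ∀ σ ∈ (levelRes h).ker, σ • f = f) :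
    ∃ f' : idl K, inclIdl h f' = f := by
  obtain ⟨h1, h2, -⟩ := mem_idl.1 f.2
  refine ⟨⟨f, mem_idl.2 ⟨h1, h2, fun s hs => ?_⟩⟩, rfl⟩
  have hk : res L s ∈ (levelRes h).ker := by
    rw [MonoidHom.mem_ker, levelRes_res, res_eq_one_iff]; exact hs
  rw [← coe_smul_idl L _ f (rfl : res L s = _), hf _ hk]

theorem exists_inclJ_eq {x : J L} (hx : ∀ σ ∈ (levelRes h).ker, σ • x = x) :
    ∃ x' : J K, inclJ h x' = x := exists_inclIdl_eq h hx

theorem exists_inclC_eq {c : C L} (hc : ∀ σ ∈ (levelRes h).ker, σ • c = c) :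
    ∃ c' : C K, inclC h c' = c := by
  obtain ⟨f, hf, e⟩ := exists_fixed_rep (levelRes h).ker (x := c.toMul) hc
  obtain ⟨f', rfl⟩ := exists_inclIdl_eq h hf
  exact ⟨proj K (Additive.ofMul f'), congrArg Additive.ofMul e⟩

/-- The level system of two finite levels. -/
theorem levelSystem {p : ℕ} {u : NormCocycle (L ≃ₐ[ℚ] L) (C L)} (hu : IsClassFormation p u)
    (hp : IsPGroup p (levelRes h).ker) : LevelSystem (C₀ := C K) p (levelRes h) (inclC h) u where
  surjective := levelRes_surjective h
  injective := inclC_injective h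
  map_smul g c := (smul_inclC h g c).symm
  exists_of_fixed _ hc := exists_inclC_eq h hc
  classFormation := hu
  isPGroup_ker := hp

/-- Values of included ideles. -/
theorem coe_val_inclIdl (f : idl K) (q : Nat.Primes) (σ : L ≃ₐ[ℚ] L) :
    (((val (inclIdl h f) q σ : (E L q)ˣ) : E L q) : Ω q) =
      (((val f q (levelRes h σ) : (E K q)ˣ) : E K q) : Ω q) := by
  rw [coe_val _ q (res_lift L σ)]
  exact (coe_val f q (rfl : res K (lift L σ) = levelRes h σ)).symm

end Fermat.Agent.CFT.Duality
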