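import Fermat.Agent.CFT.Duality.Incl
import Fermat.Agent.CFT.Duality.Units

/-!
# The duality map on idele classes

For `K ≤ L` with `L/K` a `p`-extension, unramified outside `T`, the duality map from equivariant
maps into `C K` to functionals on cocycles of `Gal(L/ℚ)`: it kills unit families outside `T`, is
local on semilocal maps, and its kernel consists of extensions and unit families.
-/

set_option autoImplicit false
set_option linter.unusedSectionVars false
set_option linter.style.haveILetI false

noncomputable section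

namespace Fermat.Agent.CFT.Duality

open ExtCitation Fermat.Agent.Arith IntermediateField Fermat.Agent.CFT.Local Fermat.Agent.CFT.Idele

local instance factPrimeMain (q : Nat.Primes) : Fact (q : ℕ).Prime := ⟨q.2⟩

section Incl

variable {K L : IntermediateField ℚ QBar} [FiniteDimensional ℚ K] [Normal ℚ K]
  [FiniteDimensional ℚ L] [Normal ℚ L] (h : K ≤ L) {T : Set Nat.Primes}

theorem inclJ_mem_supportedIn {x : J K} (hx : x ∈ supportedIn K T) :
    inclJ h x ∈ supportedIn L T := fun q hq σ => by
  rw [toMul_inclJ]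
  refine Units.ext (Subtype.ext ?_)
  rw [coe_val_inclIdl h, hx q hq]
  simp only [Units.val_one, OneMemClass.coe_one]

theorem inclJ_mem_unitsOff {x : J K} (hx : x ∈ unitsOff K T) :
    inclJ h x ∈ unitsOff L T := fun q σ => by
  rw [toMul_inclJ]
  refine ⟨(mem_unitGroup _).2 ?_, fun hq => Units.ext (Subtype.ext ?_)⟩
  · rw [norm_val (inclIdl h x.toMul) q (res_lift L σ)]
    have hu := (mem_unitGroup _).1 (hx q (levelRes h σ)).1
    have hres : res K (lift L σ) = levelRes h σ := rfl
    rw [norm_val x.toMul q hres] at hu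
    exact hu
  · rw [coe_val_inclIdl h, (hx q _).2 hq]
    simp only [Units.val_one, OneMemClass.coe_one]

end Incl

variable {K : IntermediateField ℚ QBar} [FiniteDimensional ℚ K] [Normal ℚ K]
  {A ι : Type*} [AddCommGroup A] [DistribMulAction (K ≃ₐ[ℚ] K) A] [Fintype ι] {p : ℕ}
  {ε : Lat (K ≃ₐ[ℚ] K) ι →+ A} (hε : Presentation p ε)

omit [Fintype ι] in
/-- Composing with the projection to classes preserves equivariance. -/
theorem isEquivariantOn_proj_comp {L' : IntermediateField ℚ QBar} [FiniteDimensional ℚ L']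
    [Normal ℚ L'] {G P : Type*} [Group G] [AddCommGroup P] [DistribMulAction G P]
    [DistribMulAction G (J L')] [DistribMulAction G (C L')]
    (hc : ∀ (g : G) (x : J L'), proj L' (g • x) = g • proj L' x) {S : AddSubgroup P}
    {hS : IsStable G S} {w : S →+ J L'} (hw : IsEquivariantOn hS w) :
    IsEquivariantOn hS ((proj L').comp w) := fun g s => by
  rw [AddMonoidHom.comp_apply, AddMonoidHom.comp_apply, hw g s, hc]

omit [Fintype ι] in
/-- Composing with the part at `T` preserves equivariance. -/
theorem isEquivariantOn_partAt_comp (T : Set Nat.Primes) {P : Type*} [AddCommGroup P]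
    [DistribMulAction (K ≃ₐ[ℚ] K) P] {S : AddSubgroup P} {hS : IsStable (K ≃ₐ[ℚ] K) S}
    {w : S →+ J K} (hw : IsEquivariantOn hS w) :
    IsEquivariantOn hS ((partAt T).comp w) := fun g s => by
  rw [AddMonoidHom.comp_apply, AddMonoidHom.comp_apply, hw g s, partAt_smul]

/-- Composition with the projection to idele classes. -/
def projHom : equivHom (C := J K) hε.isStable_ker →+ equivHom (C := C K) hε.isStable_ker :=
  AddMonoidHom.mk' (fun w => ⟨(proj K).comp w.1,
    isEquivariantOn_proj_comp (proj_smul K) w.2⟩) fun w w' => Subtype.ext (AddMonoidHom.comp_add (proj K) w.1 w'.1)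

theorem projHom_coe (w : equivHom (C := J K) hε.isStable_ker) :
    (projHom hε w).1 = (proj K).comp w.1 := rfl

/-- The part at the primes of `T`. -/
def partHom (T : Set Nat.Primes) :
    equivHom (C := J K) hε.isStable_ker →+ equivHom (C := J K) hε.isStable_ker :=
  AddMonoidHom.mk' (fun w => ⟨(partAt T).comp w.1,
    isEquivariantOn_partAt_comp T w.2⟩) fun w w' => Subtype.ext (AddMonoidHom.comp_add (partAt T) w.1 w'.1)

variable {L : IntermediateField ℚ QBar} [FiniteDimensional ℚ L] [Normal ℚ L] (h : K ≤ L)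
  [hp : Fact p.Prime] {u : NormCocycle (L ≃ₐ[ℚ] L) (C L)} (hu : IsClassFormation p u)
  (hk : IsPGroup p (levelRes h).ker)

/-- The duality map of the two levels. -/
def dual : equivHom (C := C K) hε.isStable_ker →+ levelCocycles (levelRes h) A →+ ZMod p :=
  theta (levelSystem h hu hk) hε

/-- The pull back of an equivariant map into ideles. -/
def upJ (w : ε.ker →+ J K) : relUp (levelRes h) ε →+ J L :=
  ((inclJ h).comp w).comp (prS (levelRes h) ε)

theorem upJ_equivariant (w : equivHom (C := J K) hε.isStable_ker) :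
    IsEquivariantOn hε.isStable_up (upJ h w.1) := fun g s => by
  show inclJ h (w.1 (prS _ ε (smulS hε.isStable_up g s))) = g • inclJ h (w.1 (prS _ ε s))
  rw [prS_smul hε, w.2, smul_inclJ]

theorem pullHom_proj (w : ε.ker →+ J K) :
    pullHom (levelRes h) ε (inclC h) ((proj K).comp w) = (proj L).comp (upJ h w) :=
  AddMonoidHom.ext fun _ => inclC_proj h _

/-- Unit families outside a set containing the primes ramified in `L` pair to zero. -/
theorem dual_unitsOff {T : Set Nat.Primes} (hT : ∀ q ∉ T, inertia (E L q) = ⊥)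
    (w : equivHom (C := J K) hε.isStable_ker) (hw : ∀ s, w.1 s ∈ unitsOff K T) :
    dual hε h hu hk (projHom hε w) = 0 := by
  have hP : IsInduced (L ≃ₐ[ℚ] L) (Lat (L ≃ₐ[ℚ] L) ι) := Lat.isInduced
  have hwu : ∀ s, upJ h w.1 s ∈ unitsOff L T := fun s => inclJ_mem_unitsOff h (hw _)
  have hex := exists_normOn_eq_of_unitsOff (P := Lat (L ≃ₐ[ℚ] L) ι)
    (S := relUp (levelRes h) ε) (p := p) hT hε.isStable_up hP hε.smul_mem_up
    (upJ h w.1) (upJ_equivariant hε h w) hwu
  obtain ⟨φ, hφ⟩ := hex
  have e : normOn hε.isStable_up ((proj L).comp φ) =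
      pullHom (levelRes h) ε (inclC h) (projHom hε w).1 := by
    rw [projHom_coe, pullHom_proj, ← hφ]
    ext s
    simp only [normOn_apply, AddMonoidHom.comp_apply, map_sum, proj_smul]
  exact theta_eq_zero_of_norm (levelSystem h hu hk) hε (projHom hε w) ((proj L).comp φ) e

/-- Semilocal maps at one prime see only the decomposition group. -/
theorem dual_supported (q : Nat.Primes) (w : equivHom (C := J K) hε.isStable_ker)
    (hw : ∀ s, w.1 s ∈ supportedIn K {q}) (a : levelCocycles (levelRes h) A)
    (ha : ∃ x : A, ∀ g ∈ decomp L q, (a : (L ≃ₐ[ℚ] L) → A) g = levelRes h g • x - x) :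
    dual hε h hu hk (projHom hε w) a = 0 := by
  classical
  have hS := hε.isStable_up (π := levelRes h)
  let g : equivHom (C := C L) (IsStable.restrict hS (decomp L q)) :=
    ⟨(proj L).comp ((locPart L q).comp (upJ h w.1)),
      fun d s => by
        have hd := isEquivariantOn_locPart_comp hS q (upJ h w.1) (upJ_equivariant hε h w) d s
        exact (congrArg (proj L) hd).trans
          (proj_smul L (d : L ≃ₐ[ℚ] L) ((locPart L q).comp (upJ h w.1) s))⟩
  have hfg : pullHom (levelRes h) ε (inclC h) (projHom hε w).1 =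
      trHom hS (decomp L q) ((SplitHom.refl (decomp L q) u).j.comp g.1) := by
    rw [projHom_coe, pullHom_proj]
    conv_lhs => rw [← trHom_locPart hS q (upJ h w.1) (upJ_equivariant hε h w)
      fun s => inclJ_mem_supportedIn h (hw _)]
    ext s
    simp only [SplitHom.refl, trHom_apply, AddMonoidHom.finsetSum_apply, AddMonoidHom.comp_apply,
      map_sum, conjOn_apply, proj_smul, g, AddMonoidHom.id_apply]
  rw [show dual hε h hu hk (projHom hε w) a = _ from theta_eq_of_trace (levelSystem h hu hk) hε
    (projHom hε w) (hu.restrict (decomp L q)) (SplitHom.refl (decomp L q) u) g hfg a]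
  obtain ⟨x, hx⟩ := ha
  have hex := hε.surjective x
  obtain ⟨y, hy⟩ := hex
  rw [pair_coboundary, mul_zero]
  refine ⟨Lat.sec (levelRes h) (levelRes_surjective h) y, fun d => ?_⟩
  rw [mem_relUp, resMod_apply]
  simp [eps_liftC (levelSystem h hu hk) hε, Lat.pr_sec, Lat.pr_smul, hε.map_smul, hy, hx _ d.2,
    Subgroup.smul_def]

/-- Semilocal maps at finitely many primes see only the decomposition groups. -/
theorem dual_local (T : Finset Nat.Primes) (w : equivHom (C := J K) hε.isStable_ker)
    (hw : ∀ s, w.1 s ∈ supportedIn K (T : Set Nat.Primes)) (a : levelCocycles (levelRes h) A)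
    (ha : ∀ q ∈ T, ∃ x : A,
      ∀ g ∈ decomp L q, (a : (L ≃ₐ[ℚ] L) → A) g = levelRes h g • x - x) :
    dual hε h hu hk (projHom hε w) a = 0 := by
  have e : w = ∑ q ∈ T, partHom hε {q} w := Subtype.ext <| AddMonoidHom.ext fun s => by
    rw [AddSubgroup.val_finsetSum, AddMonoidHom.finsetSum_apply]
    exact (sum_partAt T (hw s)).symm
  rw [e, map_sum, map_sum, AddMonoidHom.finsetSum_apply]
  exact Finset.sum_eq_zero fun q hq =>
    dual_supported hε h hu hk q _ (fun s => partAt_mem_supportedIn {q} _) a (ha q hq)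

/-- Every functional killing coboundaries comes from an equivariant map. -/
theorem exists_dual_eq (μ : levelCocycles (levelRes h) A →+ ZMod p)
    (hμ : ∀ a : levelCocycles (levelRes h) A, ∀ x : A,
      (∀ g, (a : (L ≃ₐ[ℚ] L) → A) g = levelRes h g • x - x) → μ a = 0) :
    ∃ f, dual hε h hu hk f = μ := exists_theta_eq (levelSystem h hu hk) hε μ hμ

/-- The kernel of the duality map, if norms from `L` are `p`-th powers up to unit families. -/
theorem exists_of_dual_eq_zero {T : Set Nat.Primes} [Fintype (levelRes h).ker]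
    (hN : ∀ x : C L, ∃ c : C K, ∃ w ∈ unitsOff K T,
      normSum (levelRes h).ker (C L) x = inclC h (p • c + proj K w))
    (f : equivHom (C := C K) hε.isStable_ker) (hf : dual hε h hu hk f = 0) :
    ∃ (Y : Lat (K ≃ₐ[ℚ] K) ι →+ C K) (w : equivHom (C := J K) hε.isStable_ker),
      (∀ (g : K ≃ₐ[ℚ] K) x, Y (g • x) = g • Y x) ∧ (∀ s, w.1 s ∈ unitsOff K T) ∧
        f.1 = Y.comp ε.ker.subtype + (proj K).comp w.1 := by
  classical
  obtain ⟨Y, η, hY, hη, he⟩ := exists_of_theta_eq_zero (levelSystem h hu hk) hε f hf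
  haveI := free_subgroup ε.ker
  haveI : Module.Finite ℤ ε.ker :=
    Module.Finite.of_injective ε.ker.subtype.toIntLinearMap Subtype.val_injective
  let b := Module.Free.chooseBasis ℤ ε.ker
  have hb : ∀ i, ∃ c : C K, ∃ w ∈ unitsOff K T, η (b i) = p • c + proj K w := fun i => by
    obtain ⟨x, hx⟩ := hη (b i)
    obtain ⟨c, w, hw, hxw⟩ := hN x
    exact ⟨c, w, hw, inclC_injective h (hx.symm.trans hxw)⟩
  choose c w₀ hw₀ hcw using hb
  let c' : ε.ker →+ C K := (b.constr ℤ c).toAddMonoidHom
  let w' : ε.ker →+ J K := (b.constr ℤ w₀).toAddMonoidHom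
  have hc : ∀ i, c' (b i) = c i := fun i => Module.Basis.constr_basis b ℤ c i
  have hw : ∀ i, w' (b i) = w₀ i := fun i => Module.Basis.constr_basis b ℤ w₀ i
  have hmem : ∀ s, w' s ∈ unitsOff K T := fun s => by
    rw [← b.sum_repr s, map_sum]
    refine sum_mem fun i _ => ?_
    rw [map_zsmul, hw]
    exact zsmul_mem (hw₀ i) _
  have hη' : η = p • c' + (proj K).comp w' := by
    have : η.toIntLinearMap = (p • c' + (proj K).comp w').toIntLinearMap := b.ext fun i => by
      show η (b i) = _
      rw [AddMonoidHom.coe_toIntLinearMap, AddMonoidHom.add_apply, AddMonoidHom.smul_apply,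
        AddMonoidHom.comp_apply, hc, hw, hcw]
    exact AddMonoidHom.ext fun s => LinearMap.congr_fun this s
  let N : Lat (K ≃ₐ[ℚ] K) ι →+ C K :=
    (normOn hε.isStable_ker c').comp (mulP hε.smul_mem)
  refine ⟨Y + N, ⟨normOn hε.isStable_ker w', isEquivariantOn_normOn _ w'⟩, fun g x => ?_,
    fun s => ?_, ?_⟩
  · rw [AddMonoidHom.add_apply, AddMonoidHom.add_apply, smul_add, hY]
    congr 1
    show normOn hε.isStable_ker c' (mulP hε.smul_mem (g • x)) = _
    rw [← smulS_mulP hε.isStable_ker]
    exact isEquivariantOn_normOn _ c' g _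
  · show normOn hε.isStable_ker w' s ∈ _
    rw [normOn_apply]
    exact sum_mem fun g _ => smul_mem_unitsOff g (hmem _)
  · rw [he, hη']
    ext s
    simp only [AddMonoidHom.add_apply, AddMonoidHom.comp_apply, AddSubgroup.coe_subtype,
      AddMonoidHom.smul_apply, normOn_apply, N, mulP_coe, map_nsmul, map_sum, proj_smul,
      smul_add, Finset.sum_add_distrib, Finset.smul_sum, smul_comm _ p, add_assoc]

end Fermat.Agent.CFT.Duality
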