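import Fermat.Agent.CFT.Idele.Classes
import Fermat.Agent.CFT.Duality.Instances
import Fermat.Agent.CFT.Coh.Transfer

/-!
# Semilocal parts of ideles as traces from decomposition groups

An idele supported at one prime is the sum of the conjugates of its values at the decomposition
group; hence an equivariant map into such ideles is a trace from that group.
-/

set_option autoImplicit false
set_option linter.unusedSectionVars false

noncomputable section

namespace Fermat.Agent.CFT.Duality

open ExtCitation Fermat.Agent.Arith IntermediateField Fermat.Agent.CFT.Local Fermat.Agent.CFT.Idele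

local instance factPrimeSemiloc (q : Nat.Primes) : Fact (q : ℕ).Prime := ⟨q.2⟩

variable (L : IntermediateField ℚ QBar) [FiniteDimensional ℚ L] [Normal ℚ L]

/-- The decomposition group of the distinguished place over `q`. -/
abbrev decomp (q : Nat.Primes) : Subgroup (L ≃ₐ[ℚ] L) := (toGlobal (q : ℕ) L).range

/-- Ideles which are trivial outside `T`. -/
def supportedIn (T : Set Nat.Primes) : AddSubgroup (J L) where
  carrier := {x | ∀ q ∉ T, ∀ σ, val x.toMul q σ = 1}
  zero_mem' q _ σ := val_one q σ
  add_mem' {x y} hx hy q hq σ := by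
    show val (x.toMul * y.toMul) q σ = 1
    rw [val_mul, hx q hq σ, hy q hq σ, one_mul]
  neg_mem' {x} hx q hq σ := by
    show val x.toMul⁻¹ q σ = 1
    rw [show val x.toMul⁻¹ q σ = (val x.toMul q σ)⁻¹ from map_inv (valHom q σ) _, hx q hq σ,
      inv_one]

/-- Unit ideles which are trivial on `T`. -/
def unitsOff (T : Set Nat.Primes) : AddSubgroup (J L) where
  carrier := {x | ∀ q σ, val x.toMul q σ ∈ unitGroup (E L q) ∧ (q ∈ T → val x.toMul q σ = 1)}
  zero_mem' q σ := by
    rw [show val (0 : J L).toMul q σ = 1 from val_one q σ]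
    exact ⟨one_mem _, fun _ => rfl⟩
  add_mem' {x y} hx hy q σ := by
    rw [show val (x + y).toMul q σ = val x.toMul q σ * val y.toMul q σ from val_mul _ _ q σ]
    exact ⟨mul_mem (hx q σ).1 (hy q σ).1, fun hq => by rw [(hx q σ).2 hq, (hy q σ).2 hq, one_mul]⟩
  neg_mem' {x} hx q σ := by
    rw [show val (-x).toMul q σ = (val x.toMul q σ)⁻¹ from map_inv (valHom q σ) x.toMul]
    exact ⟨inv_mem (hx q σ).1, fun hq => by rw [(hx q σ).2 hq, inv_one]⟩

variable {L}

theorem val_smul_J (σ : L ≃ₐ[ℚ] L) (x : J L) (q : Nat.Primes) (τ : L ≃ₐ[ℚ] L) :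
    val (σ • x).toMul q τ = val x.toMul q (τ * σ) := val_smul σ x.toMul q τ

theorem smul_mem_supportedIn {T : Set Nat.Primes} (σ : L ≃ₐ[ℚ] L) {x : J L}
    (hx : x ∈ supportedIn L T) : σ • x ∈ supportedIn L T := fun q hq τ => by
  rw [val_smul_J]; exact hx q hq _

theorem smul_mem_unitsOff {T : Set Nat.Primes} (σ : L ≃ₐ[ℚ] L) {x : J L}
    (hx : x ∈ unitsOff L T) : σ • x ∈ unitsOff L T := fun q τ => by
  rw [val_smul_J]; exact hx q _

theorem J_ext {x y : J L} (h : ∀ q σ, val x.toMul q σ = val y.toMul q σ) : x = y :=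
  congrArg Additive.ofMul (val_ext h)

theorem val_sum {ι : Type*} (s : Finset ι) (x : ι → J L) (q : Nat.Primes) (σ : L ≃ₐ[ℚ] L) :
    val (∑ i ∈ s, x i).toMul q σ = ∏ i ∈ s, val (x i).toMul q σ := by
  rw [show (∑ i ∈ s, x i).toMul = ∏ i ∈ s, (x i).toMul from toMul_sum _ _]
  exact val_prod s _ q σ

open Classical in
/-- The part of an idele at the primes of `T`. -/
def partAt (T : Set Nat.Primes) : J L →+ J L :=
  AddMonoidHom.mk'
    (fun x => Additive.ofMul (Family.toIdl (L := L)
      { toFun := fun q σ => if q ∈ T then val x.toMul q σ else 1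
        equi := fun q t σ => by
          by_cases hq : q ∈ T
          · simp only [if_pos hq, val_toGlobal_mul]
          · simp only [if_neg hq, smul_one]
        cofinite := by
          obtain ⟨S, hS⟩ := val_mem_unitGroup_cofinite x.toMul
          exact ⟨S, fun q hq σ => by split_ifs <;> [exact hS q hq σ; exact one_mem _]⟩ }))
    fun x y => J_ext fun q σ => by
      show val _ q σ = val (_ * _) q σ
      rw [val_mul]
      simp only [toMul_ofMul, Family.val_toIdl]
      split_ifs
      · exact val_mul _ _ q σ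
      · rw [one_mul]

open Classical in
theorem val_partAt (T : Set Nat.Primes) (x : J L) (q : Nat.Primes) (σ : L ≃ₐ[ℚ] L) :
    val (partAt T x).toMul q σ = if q ∈ T then val x.toMul q σ else 1 :=
  Family.val_toIdl _ q σ

theorem partAt_smul (T : Set Nat.Primes) (σ : L ≃ₐ[ℚ] L) (x : J L) :
    partAt T (σ • x) = σ • partAt T x := by
  classical
  exact J_ext fun q τ => by simp only [val_smul_J, val_partAt]

theorem partAt_mem_supportedIn (T : Set Nat.Primes) (x : J L) :
    partAt T x ∈ supportedIn L T := fun q hq σ => by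
  classical
  rw [val_partAt, if_neg hq]

theorem sum_partAt (T : Finset Nat.Primes) {x : J L} (hx : x ∈ supportedIn L (T : Set Nat.Primes)) :
    ∑ q ∈ T, partAt {q} x = x := J_ext fun q σ => by
  classical
  rw [val_sum]
  simp only [val_partAt, Set.mem_singleton_iff, Finset.prod_ite_eq]
  split_ifs with hq
  · rfl
  · exact (hx q (by simpa using hq) σ).symm

variable (L) in
/-- The value at `(q, 1)` placed at the distinguished place over `q`. -/
def locPart (q : Nat.Primes) : J L →+ J L :=
  AddMonoidHom.mk' (fun x => Additive.ofMul (locIdl q (val x.toMul q 1))) fun x y => by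
    show Additive.ofMul (locIdl q (val (x.toMul * y.toMul) q 1)) = _
    rw [val_mul, map_mul]
    rfl

theorem locPart_apply (q : Nat.Primes) (x : J L) :
    locPart L q x = loc' L q (Additive.ofMul (val x.toMul q 1)) := rfl

theorem locPart_smul (q : Nat.Primes) {σ : L ≃ₐ[ℚ] L} (hσ : σ ∈ decomp L q) (x : J L) :
    locPart L q (σ • x) = σ • locPart L q x := by
  obtain ⟨t, rfl⟩ := MonoidHom.mem_range.1 hσ
  refine congrArg Additive.ofMul ?_
  rw [val_smul_J, one_mul, ← mul_one (toGlobal (q : ℕ) L t), val_toGlobal_mul, mul_one]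
  exact (smul_locIdl q _ t).symm

/-- An idele supported at `q` is the sum of the conjugates of its values at `(q, 1)`. -/
theorem eq_sum_smul_locPart (q : Nat.Primes) [Fintype ((L ≃ₐ[ℚ] L) ⧸ decomp L q)] {x : J L}
    (hx : x ∈ supportedIn L {q}) :
    ∑ r : (L ≃ₐ[ℚ] L) ⧸ decomp L q, r.out • locPart L q (r.out⁻¹ • x) = x := J_ext fun q' τ => by
  rw [val_sum]
  rcases eq_or_ne q' q with rfl | hne
  · have hval : ∀ r : (L ≃ₐ[ℚ] L) ⧸ decomp L q',
        val (r.out • locPart L q' (r.out⁻¹ • x)).toMul q' τ =
          val (locIdl q' (val x.toMul q' r.out⁻¹)) q' (τ * r.out) := fun r => by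
      rw [val_smul_J, locPart_apply, val_smul_J, one_mul]
      rfl
    rw [Finset.prod_eq_single (QuotientGroup.mk τ⁻¹)]
    · rw [hval]
      obtain ⟨⟨d, hd⟩, e⟩ := QuotientGroup.mk_out_eq_mul (decomp L q') τ⁻¹
      obtain ⟨t, rfl⟩ := MonoidHom.mem_range.1 hd
      rw [e, mul_inv_cancel_left, mul_inv_rev, inv_inv, val_locIdl_self, ← val_toGlobal_mul,
        mul_inv_cancel_left]
    · intro r _ hr
      rw [hval]
      refine val_locIdl_of_notMem q' _ fun hm => hr ?_
      rw [← QuotientGroup.out_eq' r, QuotientGroup.eq]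
      have := inv_mem hm
      rwa [mul_inv_rev] at this
    · exact fun h => absurd (Finset.mem_univ _) h
  · rw [hx q' hne τ]
    refine Finset.prod_eq_one fun r _ => ?_
    rw [val_smul_J, locPart_apply]
    exact val_locIdl_of_ne q _ hne _

section Trace

variable {P : Type*} [AddCommGroup P] [DistribMulAction (L ≃ₐ[ℚ] L) P] {S : AddSubgroup P}
  (hS : IsStable (L ≃ₐ[ℚ] L) S)

/-- An equivariant map into the ideles supported at `q` is a trace from the decomposition group. -/
theorem trHom_locPart (q : Nat.Primes) [Fintype ((L ≃ₐ[ℚ] L) ⧸ decomp L q)] (w : S →+ J L)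
    (hw : IsEquivariantOn hS w) (hwq : ∀ s, w s ∈ supportedIn L {q}) :
    trHom hS (decomp L q) ((locPart L q).comp w) = w := by
  ext1 s
  rw [trHom_apply, AddMonoidHom.finsetSum_apply]
  simp only [conjOn_apply, AddMonoidHom.comp_apply, hw _ s]
  exact eq_sum_smul_locPart q (hwq s)

theorem isEquivariantOn_locPart_comp (q : Nat.Primes) (w : S →+ J L)
    (hw : IsEquivariantOn hS w) :
    IsEquivariantOn (IsStable.restrict hS (decomp L q)) ((locPart L q).comp w) := fun h s => by
  show locPart L q (w (smulS (IsStable.restrict hS (decomp L q)) h s)) = h • locPart L q (w s)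
  rw [show w (smulS (IsStable.restrict hS (decomp L q)) h s) = (h : L ≃ₐ[ℚ] L) • w s from hw _ s]
  exact locPart_smul q h.2 (w s)

end Trace

end Fermat.Agent.CFT.Duality
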